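/-
P-CFT (helper85): REPAIR of the LOCAL frame.

`H⁰(dualCx2 K) = ker (transpose d¹²) = Dual (K² / B²)` is strictly bigger than `Dual (H² K)` as soon
as `B³ ≠ 0`, so the `H⁰`-component of `LDualityP` (hence `LocalBase`, `WaistBaseStatement` and the
second half of `LDualZeroStatement`) cannot hold for the local Galois groups.  The only local fact
consumed by the assembly (`WaistStatement`, `LocalOnto`) is

    `H¹(λ_M)` is onto for every good `M`,

which the dimension shifting of `H13.Cft.StepD` delivers without the false pieces.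

* `LDualZero1Statement` : first half of `LDualZeroStatement` (the true one);
* `local_E1`            : `H¹(λ_M)` epi for every good `M` (the `E1` block of `local_shift`);
* `localOnto_of_E1`     : `LocalOnto` from `H¹(λ)` epi on good modules at every place
                          (helper95's proof without the dévissage `localMain`);
* `localOnto_of_v2`     : the complete local contribution to `WaistStatement` from `[LC]` and the
                          frame statements;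
* `waist_of_v2`         : `WaistStatement` from the v2 inputs (without `LDualZeroStatement`'s second
                          half and without `LMidMonoStatement`).
-/
import Fermat.Agent.H13.Cft.WaistV2
import Fermat.Agent.H95.Cft.LocalOnto

set_option autoImplicit false

universe u

open CategoryTheory CategoryTheory.Limits ExtCitation

namespace Fermat.Agent.H85.Cft

open Fermat.Agent.H13.Cft Fermat.Agent.H19 Fermat.Agent.H53 Fermat.Agent.H47.Cft
  Fermat.Agent.H95.Cft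

/-- **[L-DZ1]** The true half of `LDualZeroStatement`: if `H¹(g) = 0` then
`H¹(dualCx2Map g) = 0`. -/
def LDualZero1Statement : Prop :=
  ∀ {k : Type u} [Field k] {K K' : CochainComplex (ModuleCat.{u} k) ℕ} (g : K ⟶ K'),
    HomologicalComplex.homologyMap g 1 = 0 →
      HomologicalComplex.homologyMap (dualCx2Map g) 1 = 0

theorem lDualZero1_of (h : LDualZeroStatement.{u}) : LDualZero1Statement.{u} :=
  fun g hg => (h g).1 hg

section shift

variable {k Γ : Type u} [Field k] [Group Γ] {𝒱 : LevelSys Γ} {χ : Γ →* kˣ}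

/-- Dimension shifting, local, `E1` only: `H¹(λ_M)` is onto for every good `M`. -/
theorem local_E1 (hχ : ∃ N ∈ 𝒱.sets, ∀ s ∈ N, χ s = 1) (Tv : LTrace 𝒱 χ)
    (hcv : ∀ M : Rep.{u} k Γ, LThetaComm Tv M)
    (hds : DsEpiStatement.{u}) (heff : EffaceStatement.{u})
    (hsum : SumMonoStatement.{u}) (hdz : LDualZero1Statement.{u}) (hsub : GoodSubStatement.{u})
    (hperm : PermGoodStatement.{u}) (hadd : AdditiveStatement.{u})
    (hfin : ∀ M : Rep.{u} k Γ, IsLGood 𝒱 M → Module.Finite k (lvlH 𝒱 (M.dualTwist χ) 1))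
    (hE2 : ∀ M : Rep.{u} k Γ, IsLGood 𝒱 M →
      Epi (HomologicalComplex.homologyMap (lthetaHom Tv M (hcv M)) 2))
    (hM2 : ∀ V : Subgroup Γ, IsChiOpen 𝒱 χ V →
      Epi (HomologicalComplex.homologyMap
        (lthetaHom Tv (Rep.ofMulAction k Γ (Γ ⧸ V)) (hcv _)) 2) →
      Mono (HomologicalComplex.homologyMap
        (lthetaHom Tv (Rep.ofMulAction k Γ (Γ ⧸ V)) (hcv _)) 2))
    (M : Rep.{u} k Γ) (hM : IsLGood 𝒱 M) :
    Epi (HomologicalComplex.homologyMap (lthetaHom Tv M (hcv M)) 1) := by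
  obtain ⟨hadd1, hadd2⟩ := (hadd (k := k) (G := Γ)).2 𝒱 χ
  have hexact : ∀ X : ShortComplex (Rep.{u} k Γ), X.ShortExact → IsLGood 𝒱 X.X₂ →
      (X.map (lvlFunctor 𝒱)).ShortExact ∧ (X.map (lDualSideFunctor 𝒱 χ)).ShortExact :=
    fun X hX hg => ⟨Fermat.Agent.H87.Cft.lvlSes 𝒱 X hX hg.2.isSmooth,
      lDualSide_shortExact 𝒱 χ X hX
        (Fermat.Agent.H47.Cft.isTrivialisedBy_dualTwist χ 𝒱 hχ _ hg.2).isSmooth⟩
  have hsub' : ∀ X : ShortComplex (Rep.{u} k Γ), X.ShortExact → IsLGood 𝒱 X.X₂ →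
      IsLGood 𝒱 X.X₁ := fun X hX hg => hsub 𝒱 X hX hg.1 hg.2
  have hP : ∀ W : Subgroup Γ, IsChiOpen 𝒱 χ W →
      IsLGood 𝒱 (Rep.ofMulAction k Γ (Γ ⧸ W)) := fun W hW => hperm 𝒱 W hW.1
  have M2 : ∀ W : Subgroup Γ, IsChiOpen 𝒱 χ W →
      Mono (HomologicalComplex.homologyMap
        (lthetaHom Tv (Rep.ofMulAction k Γ (Γ ⧸ W)) (hcv _)) 2) :=
    fun W hW => hM2 W hW (hE2 _ (hP W hW))
  obtain ⟨N, hN, hχN, I, π, hπ, hI1, hI2, hIsum, hzero⟩ :=
    heff 𝒱 χ hχ M hM.1 hM.2 1 le_rfl (hfin M hM)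
  refine shiftStep (lvlFunctor 𝒱) (lDualSideFunctor 𝒱 χ) (lthetaNatTrans Tv hcv) hds
    (IsLGood 𝒱) hexact hsub' 1 hE2 M ⟨I, π, hπ, ⟨hI1, hI2⟩, ?_, ?_⟩
  · exact hsum (lvlFunctor 𝒱) (lDualSideFunctor 𝒱 χ) (lthetaNatTrans Tv hcv) 2 _ I hIsum
      (M2 N ⟨⟨N, hN, le_rfl⟩, hχN⟩)
  · exact hdz (lvlMap 𝒱 (dualTwistMap χ π)) hzero

end shift

section onto

/-- **[L-ONTO']** `LocalOnto` from `H¹(λ_N)` onto for the good modules `N` of every local group
(no dévissage, no `LocalBase`). -/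
theorem localOnto_of_E1 {p : ℕ} [Fact p.Prime] {G : Type} [Group G]
    (𝔄 : ArithDatum (ZMod p) G) (T : Trace 𝔄)
    (hloc : ∀ v : 𝔄.ι, ∃ (Tv : LTrace (𝔄.lvlv v) (𝔄.χ.comp (𝔄.loc v)))
        (hc : ∀ M : Rep (ZMod p) (𝔄.Γ v), LThetaComm Tv M),
        (∀ c : (Fin 2 → 𝔄.Γ v) → ZMod p,
          ∀ (h1 : c ∈ lvlCochains (𝔄.lvlv v) (muRep (𝔄.χ.comp (𝔄.loc v))) 2)
            (h2 : c ∈ lvlCochains (𝔄.lvlv v) (Rep.res (𝔄.loc v) (muRep 𝔄.χ)) 2),
            Tv.t ⟨c, h1⟩ = T.localAt v ⟨c, h2⟩) ∧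
        ∀ N : Rep (ZMod p) (𝔄.Γ v), IsLGood (𝔄.lvlv v) N →
          Epi (HomologicalComplex.homologyMap (lthetaHom Tv N (hc N)) 1))
    (M : Rep (ZMod p) G) (hM : IsGood 𝔄 M) : LocalOnto 𝔄 T M := by
  intro v ψ
  obtain ⟨Tv, hc, hagree, hE1⟩ := hloc v
  have hNgood : IsLGood (𝔄.lvlv v) (Rep.res (𝔄.loc v) M) := by
    obtain ⟨hfin, N₀, hN₀, htriv⟩ := hM
    obtain ⟨N', hN', hle⟩ := 𝔄.compat v N₀ hN₀
    exact ⟨hfin, N', hN', fun s hs => htriv _ (hle hs)⟩
  have hsurj : Function.Surjective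
      (HomologicalComplex.homologyMap (lthetaHom Tv (Rep.res (𝔄.loc v) M)
        (hc (Rep.res (𝔄.loc v) M))) 1).hom := by
    have := hE1 _ hNgood
    exact (ModuleCat.epi_iff_surjective _).1 inferInstance
  -- the two complexes of dual coefficients and the comparison maps
  let conv : lvlComplex (𝔄.lvlv v) ((Rep.res (𝔄.loc v) M).dualTwist (𝔄.χ.comp (𝔄.loc v))) ⟶
      lvlComplex (𝔄.lvlv v) (Rep.res (𝔄.loc v) (M.dualTwist 𝔄.χ)) :=
    lvlMap (𝔄.lvlv v) (twistResInv (𝔄.loc v) 𝔄.χ M)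
  let conv' : lvlComplex (𝔄.lvlv v) (Rep.res (𝔄.loc v) (M.dualTwist 𝔄.χ)) ⟶
      lvlComplex (𝔄.lvlv v) ((Rep.res (𝔄.loc v) M).dualTwist (𝔄.χ.comp (𝔄.loc v))) :=
    lvlMap (𝔄.lvlv v) (twistResHom (𝔄.loc v) 𝔄.χ M)
  let K₂ := lvlComplex (𝔄.lvlv v) ((Rep.res (𝔄.loc v) M).dualTwist (𝔄.χ.comp (𝔄.loc v)))
  let ψ₂ : LinearMap.ker (K₂.d 1 2).hom →ₗ[ZMod p] ZMod p :=
    ψ ∘ₗ (HomologicalComplex.homologyMap conv 1).hom ∘ₗ cocyclesToH K₂ 1
  have hψ₂ : ∀ (z : K₂.X 0) (hz : (K₂.d 0 1).hom z ∈ LinearMap.ker (K₂.d 1 2).hom),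
      ψ₂ ⟨(K₂.d 0 1).hom z, hz⟩ = 0 := by
    intro z hz
    have h0 : cocyclesToH K₂ 1 ⟨(K₂.d 0 1).hom z, hz⟩ = 0 :=
      (cocyclesToH_succ_eq_zero_iff K₂ 0 _).2 ⟨z, rfl⟩
    show ψ ((HomologicalComplex.homologyMap conv 1).hom (cocyclesToH K₂ 1 _)) = 0
    rw [h0, map_zero, map_zero]
  obtain ⟨ξ, hξ1, hξ2⟩ := exists_dual_cocycle K₂ ψ₂ hψ₂
  obtain ⟨a, ha, haξ⟩ := exists_cocycle_of_surjective K₂
    (lthetaHom Tv (Rep.res (𝔄.loc v) M) (hc (Rep.res (𝔄.loc v) M))) hsurj ξ hξ2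
  have ha' : lvlD (𝔄.lvlv v) (Rep.res (𝔄.loc v) M) 1 a = 0 :=
    (lvlComplex_d_hom_apply (𝔄.lvlv v) (Rep.res (𝔄.loc v) M) 1 a).symm.trans ha
  refine ⟨-a, by rw [map_neg, ha', neg_zero], fun y hy => ?_⟩
  -- transport `y` to the other complex
  have hy1 : ((lvlComplex (𝔄.lvlv v) (Rep.res (𝔄.loc v) (M.dualTwist 𝔄.χ))).d 1 2).hom y = 0 :=
    (lvlComplex_d_hom_apply _ _ 1 y).trans hy
  have hy2 : (K₂.d 1 2).hom ((conv'.f 1).hom y) = 0 := hapi_map_mem_ker _ 1 conv' y hy1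
  have e1 : ψ (lvlHMk (𝔄.lvlv v) (Rep.res (𝔄.loc v) (M.dualTwist 𝔄.χ)) 1 y hy)
      = ξ ((conv'.f 1).hom y) := by
    have h1 := hξ1 ⟨(conv'.f 1).hom y, LinearMap.mem_ker.2 hy2⟩
    rw [h1]
    show _ = ψ ((HomologicalComplex.homologyMap conv 1).hom (cocyclesToH K₂ 1 _))
    rw [cocyclesToH_mk K₂ 1 _ hy2, hapi_homologyMap_hMk' K₂ 1 _ conv _ hy2]
    congr 1
  have e2 : ξ ((conv'.f 1).hom y)
      = - Tv.t (cupLvl (𝔄.lvlv v) (evPairing (𝔄.χ.comp (𝔄.loc v)) (Rep.res (𝔄.loc v) M)) 1 1 a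
          ((conv'.f 1).hom y)) :=
    (haξ _ hy2).symm
  have hraw : (cupLvl (𝔄.lvlv v) (evPairing (𝔄.χ.comp (𝔄.loc v)) (Rep.res (𝔄.loc v) M)) 1 1 a
        ((conv'.f 1).hom y)).1
      = (cupLvl (𝔄.lvlv v) ((evPairing 𝔄.χ M).res (𝔄.loc v)) 1 1 a y).1 := by
    funext g
    rw [cupLvl_apply, cupLvl_apply]
    exact congrArg (fun f : Module.Dual (ZMod p) M => f (a.1 fun t => g (Fin.castAdd 1 t)))
      (dualTwist_res_ρ (𝔄.loc v) 𝔄.χ M _ _).symm
  have e3 : Tv.t (cupLvl (𝔄.lvlv v) (evPairing (𝔄.χ.comp (𝔄.loc v)) (Rep.res (𝔄.loc v) M)) 1 1 a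
        ((conv'.f 1).hom y))
      = T.localAt v (cupLvl (𝔄.lvlv v) ((evPairing 𝔄.χ M).res (𝔄.loc v)) 1 1 a y) := by
    have h := hagree (cupLvl (𝔄.lvlv v) ((evPairing 𝔄.χ M).res (𝔄.loc v)) 1 1 a y).1
      (by rw [← hraw]; exact Subtype.mem _)
      (Subtype.mem _)
    rw [← h]
    congr 1
    exact Subtype.ext hraw
  rw [e1, e2, e3, map_neg, LinearMap.neg_apply, ← localAt_apply, map_neg]

end onto

section assembly

/-- **The complete local contribution to the waist**: for the arithmetic datum of `(ℚ, S, p)` and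
a trace whose local components are nonzero on the local `2`-cocycles, `LocalOnto` holds for every
good module, from `[LC]` and the frame statements. -/
theorem localOnto_of_v2
    (hds : DsEpiStatement.{0}) (heff : EffaceStatement.{0}) (hsum : SumMonoStatement.{0})
    (hldz : LDualZero1Statement.{0}) (hsub : GoodSubStatement.{0})
    (hperm : PermGoodStatement.{0}) (hadd : AdditiveStatement.{0})
    (hfindev : FinDevissageStatement) (hvan : VanishDevissageStatement)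
    (hLE2 : LTopOntoStatement) (hLM2 : LTopMonoStatement)
    (hltr : LTraceOfTraceStatement) (hlcomm : LThetaCommStatement.{0})
    (hLC : LocalCohStatement)
    (p : ℕ) [Fact p.Prime] (hp2 : p ≠ 2) (S : Finset Nat.Primes)
    (hχ : ∃ N ∈ (globalLevelSys S).sets, ∀ s ∈ N, cycloChar p s = 1)
    (T : Trace (arithDatumQ p S hχ))
    (hT : ∀ v : (arithDatumQ p S hχ).ι,
      ∃ a : lvlCochains ((arithDatumQ p S hχ).lvlv v)
          (Rep.res ((arithDatumQ p S hχ).loc v) (muRep (arithDatumQ p S hχ).χ)) 2,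
        lvlD ((arithDatumQ p S hχ).lvlv v)
          (Rep.res ((arithDatumQ p S hχ).loc v) (muRep (arithDatumQ p S hχ).χ)) 2 a = 0 ∧
        T.localAt v a ≠ 0)
    (M : Rep (ZMod p) GQ) (hM : IsGood (arithDatumQ p S hχ) M) :
    LocalOnto (arithDatumQ p S hχ) T M := by
  -- local cohomology of good modules
  have hLfin : ∀ (v : (arithDatumQ p S hχ).ι) (n : ℕ), n = 1 ∨ n = 2 →
      ∀ N : Rep (ZMod p) ((arithDatumQ p S hχ).Γ v), IsLGood ((arithDatumQ p S hχ).lvlv v) N →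
      Module.Finite (ZMod p) (lvlH ((arithDatumQ p S hχ).lvlv v) N n) := by
    intro v n hn N hN
    refine hfindev ((arithDatumQ p S hχ).lvlv v)
      ((arithDatumQ p S hχ).χ.comp ((arithDatumQ p S hχ).loc v))
      (chi_level_loc (arithDatumQ p S hχ) v) n ?_ N hN.1 hN.2
    intro V hV
    rcases hn with rfl | rfl
    · exact (hLC p hp2 v.1 V hV).1
    · exact (hLC p hp2 v.1 V hV).2.1
  have hLvan : ∀ (v : (arithDatumQ p S hχ).ι)
      (N : Rep (ZMod p) ((arithDatumQ p S hχ).Γ v)), IsLGood ((arithDatumQ p S hχ).lvlv v) N →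
      IsZero (lvlH ((arithDatumQ p S hχ).lvlv v) N 3) := by
    intro v N hN
    refine hvan ((arithDatumQ p S hχ).lvlv v)
      ((arithDatumQ p S hχ).χ.comp ((arithDatumQ p S hχ).loc v))
      (chi_level_loc (arithDatumQ p S hχ) v) 3 ?_ N hN.1 hN.2
    intro V hV
    exact (hLC p hp2 v.1 V hV).2.2.2
  refine localOnto_of_E1 (arithDatumQ p S hχ) T ?_ M hM
  intro v
  obtain ⟨Tv, hagree, hnz⟩ := hltr (arithDatumQ p S hχ) T v
  have hcv : ∀ M : Rep (ZMod p) ((arithDatumQ p S hχ).Γ v), LThetaComm Tv M :=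
    fun M => hlcomm _ _ Tv M
  refine ⟨Tv, hcv, hagree, ?_⟩
  intro N hN
  refine local_E1 (chi_level_loc (arithDatumQ p S hχ) v) Tv hcv hds heff hsum hldz hsub
    hperm hadd ?_ ?_ ?_ N hN
  · intro M' hM'
    exact hLfin v 1 (Or.inl rfl) _ (isLGood_dualTwist ((arithDatumQ p S hχ).lvlv v) _
      (chi_level_loc (arithDatumQ p S hχ) v) M' hM')
  · exact hLE2 _ _ (chi_level_loc (arithDatumQ p S hχ) v) Tv hcv (hLvan v) (hnz (hT v))
  · intro W hW hepi
    exact hLM2 _ _ Tv hcv W hW hepi (hLC p hp2 v.1 W hW).2.1 (hLC p hp2 v.1 W hW).2.2.1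

/-- **STEP D v2, repaired.** `WaistStatement` (the waist consumed by `s55Core_of_parts`) from the
four number-theoretic inputs `[TR]`, `[GA]`, `[GC]`, `[LC]` and the frame statements; the false
pieces (`LocalBase`, second half of `LDualZeroStatement`) and `LMidMonoStatement` are not used. -/
theorem waist_of_v2
    (hds : DsEpiStatement.{0}) (heff : EffaceStatement.{0}) (hsum : SumMonoStatement.{0})
    (hdz : DualZeroStatement.{0}) (hldz : LDualZero1Statement.{0}) (hsub : GoodSubStatement.{0})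
    (hperm : PermGoodStatement.{0}) (hadd : AdditiveStatement.{0})
    (hfindev : FinDevissageStatement) (hvan : VanishDevissageStatement)
    (hE3 : TopOntoStatement) (hLE2 : LTopOntoStatement) (hM3 : TopMonoStatement)
    (hLM2 : LTopMonoStatement) (hM2 : CountMonoStatement)
    (hltr : LTraceOfTraceStatement) (hlocfin : LocFiniteStatement)
    (hlcomm : LThetaCommStatement.{0})
    (hTR : TraceNonzeroStatement) (hGA : GlobalTopStatement) (hGC : GlobalCountStatement)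
    (hLC : LocalCohStatement) : WaistStatement := by
  intro p _ hp2 S hpS hχ hc
  obtain ⟨T, hT⟩ := hTR p hp2 S hpS hχ
  have hLfin : ∀ (v : (arithDatumQ p S hχ).ι) (n : ℕ), n = 1 ∨ n = 2 →
      ∀ N : Rep (ZMod p) ((arithDatumQ p S hχ).Γ v), IsLGood ((arithDatumQ p S hχ).lvlv v) N →
      Module.Finite (ZMod p) (lvlH ((arithDatumQ p S hχ).lvlv v) N n) := by
    intro v n hn N hN
    refine hfindev ((arithDatumQ p S hχ).lvlv v)
      ((arithDatumQ p S hχ).χ.comp ((arithDatumQ p S hχ).loc v))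
      (chi_level_loc (arithDatumQ p S hχ) v) n ?_ N hN.1 hN.2
    intro V hV
    rcases hn with rfl | rfl
    · exact (hLC p hp2 v.1 V hV).1
    · exact (hLC p hp2 v.1 V hV).2.1
  have hLvan : ∀ (v : (arithDatumQ p S hχ).ι)
      (N : Rep (ZMod p) ((arithDatumQ p S hχ).Γ v)), IsLGood ((arithDatumQ p S hχ).lvlv v) N →
      IsZero (lvlH ((arithDatumQ p S hχ).lvlv v) N 3) := by
    intro v N hN
    refine hvan ((arithDatumQ p S hχ).lvlv v)
      ((arithDatumQ p S hχ).χ.comp ((arithDatumQ p S hχ).loc v))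
      (chi_level_loc (arithDatumQ p S hχ) v) 3 ?_ N hN.1 hN.2
    intro V hV
    exact (hLC p hp2 v.1 V hV).2.2.2
  have hPgood : ∀ U : Subgroup GQ,
      IsChiOpen (arithDatumQ p S hχ).lvl (arithDatumQ p S hχ).χ U →
      IsGood (arithDatumQ p S hχ) (Rep.ofMulAction (ZMod p) GQ (GQ ⧸ U)) :=
    fun U hU => hperm (arithDatumQ p S hχ).lvl U hU.1
  refine ⟨T, ?_, fun M hM => localOnto_of_v2 hds heff hsum hldz hsub hperm hadd hfindev hvan
    hLE2 hLM2 hltr hlcomm hLC p hp2 S hχ T hT M hM⟩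
  -- the global base case (as in `waistBase_of_v2`)
  intro U hopen _ hχU
  refine global_shift (arithDatumQ p S hχ) T (hc T) hds heff hsum hdz hsub hperm hadd
    ?_ ?_ ?_ ?_ U ⟨hopen, hχU⟩
  · intro M hM
    have hM' := isGood_dualTwist (arithDatumQ p S hχ) M hM
    constructor
    · refine hfindev (arithDatumQ p S hχ).lvl (arithDatumQ p S hχ).χ
        (arithDatumQ p S hχ).χ_level 1 ?_ _ hM'.1 hM'.2
      intro U' hU'
      exact (hGC p hp2 S hpS hχ U' hU').1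
    · refine hfindev (arithDatumQ p S hχ).lvl (arithDatumQ p S hχ).χ
        (arithDatumQ p S hχ).χ_level 2 ?_ _ hM'.1 hM'.2
      intro U' hU'
      exact (hlocfin (arithDatumQ p S hχ) _ 2 (fun v => hLfin v 2 (Or.inr rfl) _
        (isLGood_res (arithDatumQ p S hχ) _ (hPgood U' hU') v))).2
        (hGC p hp2 S hpS hχ U' hU').2.1
  · exact hE3 (arithDatumQ p S hχ) T (hc T) ⟨pPrime p, hpS⟩ (hLvan _) (hT _)
  · intro U' hU' hepi
    exact hM3 (arithDatumQ p S hχ) T (hc T) U' hU' hepi (hGA p hp2 S hpS hχ U' hU').1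
      (hGA p hp2 S hpS hχ U' hU').2
  · intro U' hU' hepi
    exact hM2 (arithDatumQ p S hχ) T (hc T) U' hU' hepi (hGC p hp2 S hpS hχ U' hU').1
      (hlocfin (arithDatumQ p S hχ) _ 1 (fun v => hLfin v 1 (Or.inl rfl) _
        (isLGood_res (arithDatumQ p S hχ) _ (hPgood U' hU') v))).1
      (hGC p hp2 S hpS hχ U' hU').2.1 (hGC p hp2 S hpS hχ U' hU').2.2

end assembly

end Fermat.Agent.H85.Cft
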