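/-
P-CFT row SD-SUMREL (helper85): injectivity of `Hⁿ(η)` ON a sub-functor `A` passes to finite
direct sums (additive functors).

`theorem sumMonoRel : Fermat.Agent.H13.Cft.SumMonoRelStatement`.
-/
import Fermat.Agent.H13.Cft.ShiftRel

set_option autoImplicit false
set_option linter.unusedSectionVars false

universe u v₁ u₁

open CategoryTheory CategoryTheory.Limits

namespace Fermat.Agent.H85.SumRel

section general

variable {k : Type u} [CommRing k] {C : Type u₁} [Category.{v₁} C] [Preadditive C]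
  (G₁ G₂ : C ⥤ ModuleCat.{u} k) (θ : G₁ ⟶ G₂)
  (A : ∀ X : C, Submodule k (G₁.obj X))
  (hA : ∀ (X Y : C) (f : X ⟶ Y), ∀ x ∈ A X, (G₁.map f).hom x ∈ A Y)

/-- `θ` is injective on `A X`. -/
def InjOn (X : C) : Prop := ∀ x ∈ A X, (θ.app X).hom x = 0 → x = 0

lemma naturality_apply {X Y : C} (f : X ⟶ Y) (x : G₁.obj X) :
    (θ.app Y).hom ((G₁.map f).hom x) = (G₂.map f).hom ((θ.app X).hom x) := by
  have := congrArg (fun φ => (ModuleCat.Hom.hom φ) x) (θ.naturality f)
  simp only [ModuleCat.hom_comp, LinearMap.comp_apply] at this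
  exact this

include hA in
theorem injOn_of_iso {X Y : C} (e : X ≅ Y) (h : InjOn G₁ G₂ θ A X) : InjOn G₁ G₂ θ A Y := by
  intro x hx h0
  have h1 : (G₁.map e.inv).hom x = 0 := by
    refine h _ (hA _ _ e.inv x hx) ?_
    rw [naturality_apply, h0, map_zero]
  have h2 : (G₁.map e.hom).hom ((G₁.map e.inv).hom x) = x := by
    have h3 : G₁.map e.inv ≫ G₁.map e.hom = 𝟙 _ := by
      rw [← G₁.map_comp, e.inv_hom_id, G₁.map_id]
    have := congrArg (fun φ => (ModuleCat.Hom.hom φ) x) h3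
    simp only [ModuleCat.hom_comp, LinearMap.comp_apply, ModuleCat.hom_id, LinearMap.id_coe,
      id_eq] at this
    exact this
  rw [← h2, h1, map_zero]

theorem injOn_of_isZero [G₁.PreservesZeroMorphisms] {Z : C} (hZ : IsZero Z) :
    InjOn G₁ G₂ θ A Z := by
  intro x _ _
  have hGZ : IsZero (G₁.obj Z) := G₁.map_isZero hZ
  have h1 : (𝟙 (G₁.obj Z)) = 0 := hGZ.eq_of_src _ _
  have := congrArg (fun φ => (ModuleCat.Hom.hom φ) x) h1
  simp only [ModuleCat.hom_id, LinearMap.id_coe, id_eq, ModuleCat.hom_zero,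
    LinearMap.zero_apply] at this
  exact this

include hA in
theorem injOn_biprod [HasBinaryBiproducts C] [G₁.Additive] {X Y : C}
    (hX : InjOn G₁ G₂ θ A X) (hY : InjOn G₁ G₂ θ A Y) : InjOn G₁ G₂ θ A (X ⊞ Y) := by
  intro x hx h0
  have h1 : (G₁.map (biprod.fst : X ⊞ Y ⟶ X)).hom x = 0 := by
    refine hX _ (hA _ _ _ x hx) ?_
    rw [naturality_apply, h0, map_zero]
  have h2 : (G₁.map (biprod.snd : X ⊞ Y ⟶ Y)).hom x = 0 := by
    refine hY _ (hA _ _ _ x hx) ?_
    rw [naturality_apply, h0, map_zero]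
  have h3 : G₁.map (biprod.fst ≫ biprod.inl + biprod.snd ≫ biprod.inr : X ⊞ Y ⟶ X ⊞ Y)
      = 𝟙 _ := by
    rw [biprod.total, G₁.map_id]
  rw [G₁.map_add, G₁.map_comp, G₁.map_comp] at h3
  have := congrArg (fun φ => (ModuleCat.Hom.hom φ) x) h3
  simp only [ModuleCat.hom_add, ModuleCat.hom_comp, LinearMap.add_apply, LinearMap.comp_apply,
    ModuleCat.hom_id, LinearMap.id_coe, id_eq] at this
  rw [h1, h2, map_zero, map_zero, add_zero] at this
  exact this.symm

end general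

/-- **[SUM-REL]** -/
theorem sumMonoRel : Fermat.Agent.H13.Cft.SumMonoRelStatement.{u} := by
  intro k G _ _ F F' _ _ η n A hA P I hI hP
  let H := HomologicalComplex.homologyFunctor (ModuleCat.{u} k) (ComplexShape.up ℕ) n
  let θ : F ⋙ H ⟶ F' ⋙ H := Functor.whiskerRight η H
  have hA' : ∀ (X Y : Rep.{u} k G) (f : X ⟶ Y), ∀ x ∈ A X,
      ((F ⋙ H).map f).hom x ∈ A Y := fun X Y f x hx => hA X Y f x hx
  have key : InjOn (F ⋙ H) (F' ⋙ H) θ A I :=
    hI (fun X => InjOn (F ⋙ H) (F' ⋙ H) θ A X)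
      (fun X Y ⟨e⟩ hX => injOn_of_iso (F ⋙ H) (F' ⋙ H) θ A hA' e hX)
      (fun Z hZ => injOn_of_isZero (F ⋙ H) (F' ⋙ H) θ A hZ)
      (fun X Y hX hY => injOn_biprod (F ⋙ H) (F' ⋙ H) θ A hA' hX hY)
      hP
  exact key

end Fermat.Agent.H85.SumRel
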