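/-
P-CFT row LC-SHAP (helper85), part 1: the DICTIONARY between the level cohomology `lvlH 𝒲 A n`
(`n = 1, 2, 3`) of the trivial module `A = ZMod p` and the elementary cocycle language of
`Fermat.Agent.H78.CFT.LocalTarget` / `LocalInvRows` for a level system `𝒰` cofinal with `𝒲`.

* `lcs_h1_finite` : `H1Finite 𝒰 p → Module.Finite (ZMod p) (lvlH 𝒲 A 1)`;
* `lcs_h2_le_one` : `H2LeOne 𝒰 p → Module.Finite (ZMod p) (lvlH 𝒲 A 2) ∧ finrank ≤ 1`;
* `lcs_h3_zero`   : `H3Zero 𝒰 p → IsZero (lvlH 𝒲 A 3)`.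
-/
import Fermat.Agent.H78.CFT.LocalInvRows
import Fermat.Agent.H19.Cft.HomologyApi

set_option autoImplicit false
set_option linter.style.haveILetI false
set_option linter.unusedSectionVars false

open CategoryTheory groupCohomology

namespace Fermat.Agent.H85.LcShap

open Fermat.Agent.H13.Cft Fermat.Agent.H19 Fermat.Agent.H78.CFT

variable {G : Type} [Group G] (p : ℕ)

/-- The trivial module `ZMod p`. -/
abbrev trivZ (G : Type) [Group G] (p : ℕ) : Rep (ZMod p) G := Rep.trivial (ZMod p) G (ZMod p)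

/-! ### The differentials of the trivial module in degrees `1, 2, 3` -/

lemma lcs_d1_apply (x : (Fin 1 → G) → trivZ G p) (g : Fin 2 → G) :
    (inhomogeneousCochains.d (trivZ G p) 1).hom x g
      = x (fun _ => g 1) - x (fun _ => g 0 * g 1) + x (fun _ => g 0) := by
  rw [inhomogeneousCochains.d_hom_apply]
  simp only [Fin.sum_univ_succ, Fin.sum_univ_zero]
  have e1 : (fun i : Fin 1 => g i.succ) = fun _ => g 1 := by
    funext i; fin_cases i; rfl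
  have e2 : Fin.contractNth (0 : Fin 2) (· * ·) g = fun _ => g 0 * g 1 := by
    funext i; fin_cases i; simp [Fin.contractNth]
  have e3 : Fin.contractNth (Fin.succ (0 : Fin 1)) (· * ·) g = fun _ => g 0 := by
    funext i; fin_cases i; simp [Fin.contractNth]
  rw [e1, e2, e3]
  simp
  ring

lemma lcs_d2_apply (x : (Fin 2 → G) → trivZ G p) (g : Fin 3 → G) :
    (inhomogeneousCochains.d (trivZ G p) 2).hom x g
      = x ![g 1, g 2] - x ![g 0 * g 1, g 2] + x ![g 0, g 1 * g 2] - x ![g 0, g 1] := by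
  rw [inhomogeneousCochains.d_hom_apply]
  simp only [Fin.sum_univ_succ, Fin.sum_univ_zero]
  have e1 : (fun i : Fin 2 => g i.succ) = ![g 1, g 2] := by
    funext i; fin_cases i <;> rfl
  have e2 : Fin.contractNth (0 : Fin 3) (· * ·) g = ![g 0 * g 1, g 2] := by
    funext i; fin_cases i <;> simp [Fin.contractNth]
  have e3 : Fin.contractNth (Fin.succ (0 : Fin 2)) (· * ·) g = ![g 0, g 1 * g 2] := by
    funext i; fin_cases i <;> simp [Fin.contractNth]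
  have e4 : Fin.contractNth (Fin.succ (Fin.succ (0 : Fin 1))) (· * ·) g = ![g 0, g 1] := by
    funext i; fin_cases i <;> simp [Fin.contractNth]
  rw [e1, e2, e3, e4]
  simp
  ring

lemma lcs_d3_apply (x : (Fin 3 → G) → trivZ G p) (g : Fin 4 → G) :
    (inhomogeneousCochains.d (trivZ G p) 3).hom x g
      = x ![g 1, g 2, g 3] - x ![g 0 * g 1, g 2, g 3] + x ![g 0, g 1 * g 2, g 3]
        - x ![g 0, g 1, g 2 * g 3] + x ![g 0, g 1, g 2] := by
  rw [inhomogeneousCochains.d_hom_apply]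
  simp only [Fin.sum_univ_succ, Fin.sum_univ_zero]
  have e1 : (fun i : Fin 3 => g i.succ) = ![g 1, g 2, g 3] := by
    funext i; fin_cases i <;> rfl
  have e2 : Fin.contractNth (0 : Fin 4) (· * ·) g = ![g 0 * g 1, g 2, g 3] := by
    funext i; fin_cases i <;> simp [Fin.contractNth]
  have e3 : Fin.contractNth (Fin.succ (0 : Fin 3)) (· * ·) g = ![g 0, g 1 * g 2, g 3] := by
    funext i; fin_cases i <;> simp [Fin.contractNth]
  have e4 : Fin.contractNth (Fin.succ (Fin.succ (0 : Fin 2))) (· * ·) g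
      = ![g 0, g 1, g 2 * g 3] := by
    funext i; fin_cases i <;> simp [Fin.contractNth]
  have e5 : Fin.contractNth (Fin.succ (Fin.succ (Fin.succ (0 : Fin 1)))) (· * ·) g
      = ![g 0, g 1, g 2] := by
    funext i; fin_cases i <;> simp [Fin.contractNth]
  rw [e1, e2, e3, e4, e5]
  simp
  ring

/-! ### Level conditions -/

section levels

variable (𝒲 𝒰 : LevelSys G)

/-- `𝒰` is finer than `𝒲`: every level of `𝒲` contains a level of `𝒰`. -/
def Finer : Prop := ∀ N ∈ 𝒲.sets, ∃ N' ∈ 𝒰.sets, N' ≤ N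

variable {𝒲 𝒰}

lemma lcs_isLvl1_of_mem (h : Finer 𝒲 𝒰) {x : (Fin 1 → G) → trivZ G p}
    (hx : x ∈ lvlCochains 𝒲 (trivZ G p) 1) :
    IsLvl₁ 𝒰 (fun g : G => (x (fun _ => g) : ZMod p)) := by
  obtain ⟨N, hN, hx⟩ := hx
  obtain ⟨N', hN', hle⟩ := h N hN
  exact ⟨N', hN', fun g n hn => hx.1 (fun _ => g) (fun _ => n) (fun _ => hle hn)⟩

lemma lcs_mem_of_isLvl1 (h : Finer 𝒰 𝒲) {f : G → ZMod p} (hf : IsLvl₁ 𝒰 f) :
    (fun g : Fin 1 → G => f (g 0)) ∈ lvlCochains 𝒲 (trivZ G p) 1 := by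
  obtain ⟨N, hN, hf⟩ := hf
  obtain ⟨N', hN', hle⟩ := h N hN
  exact ⟨N', hN', fun g u hu => hf (g 0) (u 0) (hle (hu 0)), fun _ _ _ => rfl⟩

lemma lcs_isLvl2_of_mem (h : Finer 𝒲 𝒰) {x : (Fin 2 → G) → trivZ G p}
    (hx : x ∈ lvlCochains 𝒲 (trivZ G p) 2) :
    IsLvl₂ 𝒰 (fun q : G × G => (x ![q.1, q.2] : ZMod p)) := by
  obtain ⟨N, hN, hx⟩ := hx
  obtain ⟨N', hN', hle⟩ := h N hN
  refine ⟨N', hN', fun g g' n hn m hm => ?_⟩
  have := hx.1 ![g, g'] ![n, m] (fun i => by fin_cases i; exacts [hle hn, hle hm])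
  have e : (![g, g'] * ![n, m] : Fin 2 → G) = ![g * n, g' * m] := by
    funext i; fin_cases i <;> rfl
  rw [e] at this
  exact this

lemma lcs_mem_of_isLvl2 (h : Finer 𝒰 𝒲) {c : G × G → ZMod p} (hc : IsLvl₂ 𝒰 c) :
    (fun g : Fin 2 → G => c (g 0, g 1)) ∈ lvlCochains 𝒲 (trivZ G p) 2 := by
  obtain ⟨N, hN, hc⟩ := hc
  obtain ⟨N', hN', hle⟩ := h N hN
  exact ⟨N', hN', fun g u hu => hc (g 0) (g 1) (u 0) (hle (hu 0)) (u 1) (hle (hu 1)),
    fun _ _ _ => rfl⟩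

lemma lcs_isLvl3_of_mem (h : Finer 𝒲 𝒰) {x : (Fin 3 → G) → trivZ G p}
    (hx : x ∈ lvlCochains 𝒲 (trivZ G p) 3) :
    IsLvl₃ 𝒰 (fun t : G × G × G => (x ![t.1, t.2.1, t.2.2] : ZMod p)) := by
  obtain ⟨N, hN, hx⟩ := hx
  obtain ⟨N', hN', hle⟩ := h N hN
  refine ⟨N', hN', fun g g' g'' n hn m hm l hl => ?_⟩
  have := hx.1 ![g, g', g''] ![n, m, l]
    (fun i => by fin_cases i; exacts [hle hn, hle hm, hle hl])
  have e : (![g, g', g''] * ![n, m, l] : Fin 3 → G) = ![g * n, g' * m, g'' * l] := by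
    funext i; fin_cases i <;> rfl
  rw [e] at this
  exact this

lemma lcs_vec1 (g : Fin 1 → G) : (fun _ => g 0) = g := by
  funext i; fin_cases i; rfl

lemma lcs_vec2 (g : Fin 2 → G) : ![g 0, g 1] = g := by
  funext i; fin_cases i <;> rfl

lemma lcs_vec3 (g : Fin 3 → G) : ![g 0, g 1, g 2] = g := by
  funext i; fin_cases i <;> rfl

end levels

/-! ### The three statements -/

section main

variable {𝒲 𝒰 : LevelSys G} [Fact p.Prime]

/-- The homomorphism attached to a level `1`-cocycle. -/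
lemma lcs_isLvlHom_of_cocycle (h : Finer 𝒲 𝒰) (x : lvlCochains 𝒲 (trivZ G p) 1)
    (hx : lvlD 𝒲 (trivZ G p) 1 x = 0) :
    IsLvlHom 𝒰 (fun g : G => (x.1 (fun _ => g) : ZMod p)) := by
  refine ⟨fun g g' => ?_, lcs_isLvl1_of_mem p h x.2⟩
  have h0 : (inhomogeneousCochains.d (trivZ G p) 1).hom x.1 = 0 := by
    rw [← lvlD_coe, hx]; rfl
  have h1 := congrFun h0 ![g, g']
  rw [lcs_d1_apply] at h1
  simp only [Matrix.cons_val_zero, Matrix.cons_val_one] at h1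
  have h2 : (x.1 (fun _ => g') - x.1 (fun _ => g * g') + x.1 (fun _ => g) : ZMod p) = 0 := h1
  show (x.1 (fun _ => g * g') : ZMod p) = x.1 (fun _ => g) + x.1 (fun _ => g')
  linear_combination -h2

/-- **`H¹` is finite.** -/
theorem lcs_h1_finite (h : Finer 𝒲 𝒰) (hfin : H1Finite 𝒰 p) :
    Module.Finite (ZMod p) (lvlH 𝒲 (trivZ G p) 1) := by
  haveI : Finite {χ : G → ZMod p | IsLvlHom 𝒰 χ} := hfin
  let φ : LinearMap.ker (lvlD 𝒲 (trivZ G p) 1) → {χ : G → ZMod p | IsLvlHom 𝒰 χ} :=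
    fun x => ⟨fun g => (x.1.1 (fun _ => g) : ZMod p),
      lcs_isLvlHom_of_cocycle p h x.1 (LinearMap.mem_ker.1 x.2)⟩
  have hφ : Function.Injective φ := by
    intro x y hxy
    apply Subtype.ext
    apply Subtype.ext
    funext g
    have := congrFun (congrArg Subtype.val hxy) (g 0)
    have e := lcs_vec1 g
    simp only [φ] at this
    rw [e] at this
    exact this
  haveI : Finite (LinearMap.ker (lvlD 𝒲 (trivZ G p) 1)) := Finite.of_injective φ hφ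
  haveI : Finite (lvlH 𝒲 (trivZ G p) 1) :=
    Finite.of_surjective _ (lvlCocyclesToH_surjective 𝒲 (trivZ G p) 1)
  exact Module.Finite.of_finite

/-- The level `2`-cochain of an elementary level function. -/
def lcsC2 (h : Finer 𝒰 𝒲) (c : G × G → ZMod p) (hc : IsLvl₂ 𝒰 c) :
    lvlCochains 𝒲 (trivZ G p) 2 :=
  ⟨fun g : Fin 2 → G => c (g 0, g 1), lcs_mem_of_isLvl2 p h hc⟩

/-- The level `1`-cochain of an elementary level function. -/
def lcsC1 (h : Finer 𝒰 𝒲) (f : G → ZMod p) (hf : IsLvl₁ 𝒰 f) :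
    lvlCochains 𝒲 (trivZ G p) 1 :=
  ⟨fun g : Fin 1 → G => f (g 0), lcs_mem_of_isLvl1 p h hf⟩

lemma lcs_d_C1 (h : Finer 𝒰 𝒲) (f : G → ZMod p) (hf : IsLvl₁ 𝒰 f) (g : Fin 2 → G) :
    ((lvlD 𝒲 (trivZ G p) 1 (lcsC1 p h f hf)).1 g : ZMod p)
      = f (g 1) - f (g 0 * g 1) + f (g 0) := by
  rw [lvlD_coe, lcs_d1_apply]
  rfl

lemma lcs_d_C2 (h : Finer 𝒰 𝒲) (c : G × G → ZMod p) (hc : IsLvl₂ 𝒰 c) (g : Fin 3 → G) :
    ((lvlD 𝒲 (trivZ G p) 2 (lcsC2 p h c hc)).1 g : ZMod p)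
      = c (g 1, g 2) - c (g 0 * g 1, g 2) + c (g 0, g 1 * g 2) - c (g 0, g 1) := by
  rw [lvlD_coe, lcs_d2_apply]
  rfl

lemma lcs_isTrivCocycle2_of (x : lvlCochains 𝒲 (trivZ G p) 2)
    (hx : lvlD 𝒲 (trivZ G p) 2 x = 0) :
    IsTrivCocycle₂ (fun q : G × G => (x.1 ![q.1, q.2] : ZMod p)) := by
  intro g g' g''
  have h0 : (inhomogeneousCochains.d (trivZ G p) 2).hom x.1 = 0 := by
    rw [← lvlD_coe, hx]; rfl
  have h1 := congrFun h0 ![g, g', g'']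
  rw [lcs_d2_apply] at h1
  simp only [Matrix.cons_val_zero, Matrix.cons_val_one, Matrix.cons_val_two,
    Matrix.head_cons, Matrix.tail_cons] at h1
  have h2 : (x.1 ![g', g''] - x.1 ![g * g', g''] + x.1 ![g, g' * g''] - x.1 ![g, g'] : ZMod p)
      = 0 := h1
  show (x.1 ![g * g', g''] + x.1 ![g, g'] : ZMod p) = x.1 ![g', g''] + x.1 ![g, g' * g'']
  linear_combination -h2

lemma lcs_d_C2_eq_zero (h : Finer 𝒰 𝒲) (c : G × G → ZMod p) (hc : IsLvl₂ 𝒰 c)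
    (hcoc : IsTrivCocycle₂ c) : lvlD 𝒲 (trivZ G p) 2 (lcsC2 p h c hc) = 0 := by
  apply Subtype.ext
  funext g
  have := lcs_d_C2 p h c hc g
  have h2 := hcoc (g 0) (g 1) (g 2)
  show ((lvlD 𝒲 (trivZ G p) 2 (lcsC2 p h c hc)).1 g : ZMod p) = 0
  rw [this]
  linear_combination -h2

/-- **`dim H² ≤ 1`.** -/
theorem lcs_h2_le_one (h₁ : Finer 𝒲 𝒰) (h₂ : Finer 𝒰 𝒲) (h2 : H2LeOne 𝒰 p) :
    Module.Finite (ZMod p) (lvlH 𝒲 (trivZ G p) 2) ∧
      Module.finrank (ZMod p) (lvlH 𝒲 (trivZ G p) 2) ≤ 1 := by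
  obtain ⟨c₀, hc₀, hcoc₀, hspan⟩ := h2
  let x₀ : lvlCochains 𝒲 (trivZ G p) 2 := lcsC2 p h₂ c₀ hc₀
  have hx₀ : lvlD 𝒲 (trivZ G p) 2 x₀ = 0 := lcs_d_C2_eq_zero p h₂ c₀ hc₀ hcoc₀
  let v : lvlH 𝒲 (trivZ G p) 2 := lvlHMk 𝒲 (trivZ G p) 2 x₀ hx₀
  have key : ∀ w : lvlH 𝒲 (trivZ G p) 2, ∃ j : ZMod p, j • v = w := by
    intro w
    obtain ⟨x, hx, rfl⟩ := lvlHMk_surjective 𝒲 (trivZ G p) 2 w
    obtain ⟨j, y, hy, hyc⟩ := hspan (fun q : G × G => (x.1 ![q.1, q.2] : ZMod p))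
      (lcs_isLvl2_of_mem p h₁ x.2) (lcs_isTrivCocycle2_of p x hx)
    refine ⟨j, ?_⟩
    have hjx : lvlD 𝒲 (trivZ G p) 2 (j • x₀) = 0 := by rw [map_smul, hx₀, smul_zero]
    rw [← lvlHMk_smul 𝒲 (trivZ G p) 2 j x₀ hx₀ hjx]
    symm
    rw [lvlHMk_succ_eq_iff]
    refine ⟨lcsC1 p h₂ y hy, ?_⟩
    apply Subtype.ext
    funext g
    have e1 := lcs_d_C1 p h₂ y hy g
    have e2 := hyc (g 0) (g 1)
    have e3 := lcs_vec2 g
    show ((lvlD 𝒲 (trivZ G p) 1 (lcsC1 p h₂ y hy)).1 g : ZMod p)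
      = (x.1 g : ZMod p) - j * c₀ (g 0, g 1)
    rw [e1, e2]
    simp only
    rw [e3]
  constructor
  · refine Module.Finite.of_surjective (LinearMap.toSpanSingleton (ZMod p) _ v) ?_
    intro w
    obtain ⟨j, hj⟩ := key w
    exact ⟨j, hj⟩
  · exact finrank_le_one v key

/-- **`H³ = 0`.** -/
theorem lcs_h3_zero (h₁ : Finer 𝒲 𝒰) (h₂ : Finer 𝒰 𝒲) (h3 : H3Zero 𝒰 p) :
    Limits.IsZero (lvlH 𝒲 (trivZ G p) 3) := by
  have key : ∀ w : lvlH 𝒲 (trivZ G p) 3, w = 0 := by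
    intro w
    obtain ⟨x, hx, rfl⟩ := lvlHMk_surjective 𝒲 (trivZ G p) 3 w
    have hcoc : IsTrivCocycle₃ (fun t : G × G × G => (x.1 ![t.1, t.2.1, t.2.2] : ZMod p)) := by
      intro g g' g'' g3
      have h0 : (inhomogeneousCochains.d (trivZ G p) 3).hom x.1 = 0 := by
        rw [← lvlD_coe, hx]; rfl
      have h1 : ((inhomogeneousCochains.d (trivZ G p) 3).hom x.1 ![g, g', g'', g3] : ZMod p)
          = 0 := congrFun h0 _
      rw [lcs_d3_apply] at h1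
      simpa using h1
    obtain ⟨b, hb, hbc⟩ := h3 _ (lcs_isLvl3_of_mem p h₁ x.2) hcoc
    rw [lvlHMk_succ_eq_zero_iff]
    refine ⟨lcsC2 p h₂ b hb, ?_⟩
    apply Subtype.ext
    funext g
    have e1 := lcs_d_C2 p h₂ b hb g
    have e2 := hbc (g 0) (g 1) (g 2)
    have e3 := lcs_vec3 g
    show ((lvlD 𝒲 (trivZ G p) 2 (lcsC2 p h₂ b hb)).1 g : ZMod p) = (x.1 g : ZMod p)
    rw [e1, e2]
    simp only
    rw [e3]
  haveI : Subsingleton (lvlH 𝒲 (trivZ G p) 3) := ⟨fun a b => (key a).trans (key b).symm⟩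
  exact ModuleCat.isZero_of_subsingleton _

end main

end Fermat.Agent.H85.LcShap
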