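/-
P-CFT row LC-SHAP (helper85), part 2: `LocalCohOfCore2Statement`.

The FRAME statement `[LC]` (`Fermat.Agent.H13.Cft.LocalCohStatement`: for `P = 𝔽_p[Γ_q / V]`,
`V` `χ`-open, `H¹(Γ_q, P)` finite, `dim H²(Γ_q, P) ≤ 1`, `H³(Γ_q, P) = 0`) from the elementary local
statement `LocalCore2Statement`:

* `lcs_perm_iso` : `lvlH 𝒱 (k[G/V]) n ≅ lvlH (𝒱.restrict V) k n`  (PermCoind + Shapiro);
* `lcs_finer_restrict`, `lcs_finer_pullback` : the level systems `(pullbackLevelSys r).restrict V`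
  and `pullbackLevelSys (r ∘ V.subtype)` are cofinal;
* the dictionary of `LcDict`.
-/
import Fermat.Agent.H85.Cft.LcDict
import Fermat.Agent.H78.CFT.LocalToFrame2
import Fermat.Agent.H97.Shap.Main
import Fermat.Agent.H21.Cft.BridgeLevels

set_option autoImplicit false
set_option linter.style.haveILetI false
set_option linter.unusedSectionVars false

open CategoryTheory groupCohomology ExtCitation

namespace Fermat.Agent.H85.LcShap

open Fermat.Agent.H13.Cft Fermat.Agent.H19 Fermat.Agent.H78.CFT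

section shapiro

variable {k G : Type} [CommRing k] [Group G]

lemma lcs_isSmooth_trivial (𝒲 : LevelSys G) : IsSmooth 𝒲 (Rep.trivial k G k) := by
  intro m
  obtain ⟨N, hN⟩ := 𝒲.nonempty
  exact ⟨N, hN, fun _ _ => rfl⟩

/-- PermCoind + Shapiro: the level cohomology of the permutation module on `G/V` is the level
cohomology of `V` with trivial coefficients. -/
theorem lcs_perm_iso (𝒱 : LevelSys G) (V : Subgroup G) (hU : ∃ N ∈ 𝒱.sets, N ≤ V) (n : ℕ) :
    Nonempty (lvlH 𝒱 (Rep.ofMulAction k G (G ⧸ V)) n ≅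
      lvlH (𝒱.restrict V hU) (Rep.trivial k V k) n) := by
  haveI : V.FiniteIndex := by
    obtain ⟨N, hN, hNV⟩ := hU
    haveI : N.FiniteIndex := 𝒱.finiteIndex N hN
    exact Subgroup.finiteIndex_of_le hNV
  obtain ⟨e⟩ := Fermat.Agent.H97.Shap.permCoindU.{0} (k := k) V
  have hiso := Fermat.Agent.H97.Shap.shapiro.{0} 𝒱 V hU (Rep.trivial k V k)
      (lcs_isSmooth_trivial _) n
  exact ⟨(HomologicalComplex.homologyFunctor (ModuleCat k) (ComplexShape.up ℕ) n).mapIso
      ((lvlFunctor 𝒱).mapIso e) ≪≫ @asIso _ _ _ _ _ hiso⟩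

end shapiro

section cofinal

variable {Γ : Type} [Group Γ] (r : Γ →* GQ) (V : Subgroup Γ)
  (hU : ∃ N ∈ (pullbackLevelSys r).sets, N ≤ V)

/-- Every level of `(pullbackLevelSys r).restrict V` is a level of
`pullbackLevelSys (r ∘ V.subtype)`. -/
lemma lcs_finer_restrict :
    Finer ((pullbackLevelSys r).restrict V hU) (pullbackLevelSys (r.comp V.subtype)) := by
  rintro _ ⟨N, ⟨hN1, hN2, F, hF, hFN⟩, hNV, rfl⟩
  haveI := hN1
  haveI := hN2
  refine ⟨N.subgroupOf V, ⟨Subgroup.normal_subgroupOf, inferInstance, F, hF, ?_⟩, le_rfl⟩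
  intro s hs
  rw [Subgroup.mem_subgroupOf]
  exact hFN hs

/-- Every level of `pullbackLevelSys (r ∘ V.subtype)` contains a level of
`(pullbackLevelSys r).restrict V`. -/
lemma lcs_finer_pullback :
    Finer (pullbackLevelSys (r.comp V.subtype)) ((pullbackLevelSys r).restrict V hU) := by
  rintro N' ⟨-, -, F, hF, hFN⟩
  haveI := hF
  obtain ⟨N₁, hN₁, hle₁⟩ := Fermat.Agent.H21.Cft.exists_pullbackLevel_le r F
  obtain ⟨N₀, hN₀, hle₀⟩ := hU
  obtain ⟨N₂, hN₂, hle₂⟩ := (pullbackLevelSys r).directed N₁ hN₁ N₀ hN₀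
  refine ⟨N₂.subgroupOf V, ⟨N₂, hN₂, (hle₂.trans inf_le_right).trans hle₀, rfl⟩, ?_⟩
  intro s hs
  rw [Subgroup.mem_subgroupOf] at hs
  exact hFN (hle₁ (hle₂.trans inf_le_left hs))

end cofinal

/-- **[LC-SHAP]** `LocalCore2Statement → LocalCohStatement`. -/
theorem localCohOfCore2 : LocalCohOfCore2Statement := by
  intro hcore p _ hp2 q V hV
  obtain ⟨hopen, hχV⟩ := hV
  have hc := hcore p hp2 q V hopen (fun s hs => hχV s hs)
  have h₁ := lcs_finer_restrict (primeLocalToGlobal q) V hopen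
  have h₂ := lcs_finer_pullback (primeLocalToGlobal q) V hopen
  obtain ⟨e1⟩ := lcs_perm_iso (k := ZMod p) (pullbackLevelSys (primeLocalToGlobal q)) V hopen 1
  obtain ⟨e2⟩ := lcs_perm_iso (k := ZMod p) (pullbackLevelSys (primeLocalToGlobal q)) V hopen 2
  obtain ⟨e3⟩ := lcs_perm_iso (k := ZMod p) (pullbackLevelSys (primeLocalToGlobal q)) V hopen 3
  have f1 := lcs_h1_finite p h₁ hc.fin
  obtain ⟨f2, r2⟩ := lcs_h2_le_one p h₁ h₂ hc.h2.leOne
  have z3 := lcs_h3_zero p h₁ h₂ hc.h3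
  refine ⟨?_, ?_, ?_, ?_⟩
  · exact Module.Finite.equiv e1.toLinearEquiv.symm
  · exact Module.Finite.equiv e2.toLinearEquiv.symm
  · rw [e2.toLinearEquiv.finrank_eq]
    exact r2
  · exact Limits.IsZero.of_iso z3 e3

end Fermat.Agent.H85.LcShap
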