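/-
P-CFT (helper85): the U-LANGUAGE - the two global number-theoretic inputs `[GC]`, `[GA']` of
Step D v4 in ELEMENTARY cocycle language on the open subgroup `U` (trivial coefficients `ZMod p`),
with the local conditions at the Mackey subgroups
`Γ_{v,g} = mackeySubgroup (loc v) U g = {γ ∈ Γ_v | g loc(γ) g⁻¹ ∈ U}`,
`λ_{v,g} = mackeyLoc (loc v) U g : Γ_{v,g} → U`, `γ ↦ g loc(γ) g⁻¹`.

Currency (as in `Fermat.Agent.H78.CFT.LocalTarget`): cochains are plain functions `U → ZMod p`,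
`U × U → ZMod p`; `IsLvl₁ / IsLvl₂ 𝒲` = right-invariant under a level of `𝒲`;
`IsTrivCocycle₂`, `IsLvlCoboundary₂ 𝒲`, `IsLvlHom 𝒲`, `H1Finite 𝒲 p`.
Level systems: `𝔄.lvl.restrict U` on `U`, `mLvl 𝔄 U hU v g = (𝔄.lvlv v).restrict Γ_{v,g}` on the
Mackey subgroups.

* `GcUAt 𝔄 U hU`  : the three counts for `U`   →  `[GC]` for `P = 𝔽_p[G/U]`   (bridge GC-SHAP);
* `GaUAt 𝔄 v₀ N hN` : the pair classes for `N` →  `BdSpanAt` for `P = 𝔽_p[G/N]` (bridge GA-SHAP);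
* `GcUStatement`, `GaUStatement` : the same for the arithmetic datum of `(ℚ, S, p)`.
-/
import Fermat.Agent.H13.Cft.WaistV4
import Fermat.Agent.H97.Shap.Interfaces
import Fermat.Agent.H78.CFT.LocalInvRows

set_option autoImplicit false

open CategoryTheory ExtCitation

namespace Fermat.Agent.H85.ULang

open Fermat.Agent.H13.Cft Fermat.Agent.H97.Shap Fermat.Agent.H78.CFT

section abstract

variable {k G : Type} [CommRing k] [Group G] (𝔄 : ArithDatum k G) (U : Subgroup G)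
  (hU : ∃ N ∈ 𝔄.lvl.sets, N ≤ U)

/-- The level system on the Mackey subgroup `Γ_{v,g}`. -/
def mLvl (v : 𝔄.ι) (g : G) : LevelSys (mackeySubgroup (𝔄.loc v) U g) :=
  (𝔄.lvlv v).restrict _ (mackeySubgroup_open (𝔄.loc v) U g (𝔄.compat v) hU)

/-- Restriction of a `2`-cochain on `U` to the Mackey subgroup `Γ_{v,g}` along `λ_{v,g}`. -/
def mRes₂ {X : Type} (v : 𝔄.ι) (g : G) (c : U × U → X) :
    mackeySubgroup (𝔄.loc v) U g × mackeySubgroup (𝔄.loc v) U g → X :=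
  fun x => c (mackeyLoc (𝔄.loc v) U g x.1, mackeyLoc (𝔄.loc v) U g x.2)

/-- `c` is locally trivial at `(v, g)`: its restriction to `Γ_{v,g}` is the coboundary of a level
`1`-cochain of `Γ_{v,g}`. -/
def IsLocTrivU (p : ℕ) (v : 𝔄.ι) (g : G) (c : U × U → ZMod p) : Prop :=
  IsLvlCoboundary₂ (mLvl 𝔄 U hU v g) (mRes₂ 𝔄 U v g c)

/-- `R` is a system of representatives of the double cosets `U \ G / loc_v(Γ_v)`
(the shape of `Fermat.Agent.H97.Shap.MackeyStatement`). -/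
def IsDoubleCosetReps (v : 𝔄.ι) (R : Set G) : Prop :=
  ∀ x : G, ∃! g : G, g ∈ R ∧ ∃ (u : U) (γ : 𝔄.Γ v), x = u * g * 𝔄.loc v γ

end abstract

section statements

variable {G : Type} [Group G] (p : ℕ) [Fact p.Prime] (𝔄 : ArithDatum (ZMod p) G)

/-- **[GC-U]** The three counts for an open subgroup `U`:
* `Hom_level(U, ZMod p)` is finite;
* for a system `R v` of representatives of the double cosets at every place `v`,
  `Hom_level(Γ_{v,g}, ZMod p)` is finite for `g ∈ R v`;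
* there is a set `R'` of at most `C` functions such that every level `2`-cocycle of `U` which is
  locally trivial at ALL `(v, g)` (`g : G` arbitrary) is cohomologous to a member of `R'`;
* `(∏ v, ∏ g ∈ R v, #Hom_level(Γ_{v,g}, ZMod p)) * C ^ 2 ≤ #Hom_level(U, ZMod p) ^ 2`. -/
def GcUAt (U : Subgroup G) (hU : ∃ N ∈ 𝔄.lvl.sets, N ≤ U) : Prop :=
  H1Finite (𝔄.lvl.restrict U hU) p ∧
  ∃ (R : 𝔄.ι → Finset G) (C : ℕ),
    (∀ v, IsDoubleCosetReps 𝔄 U v (R v : Set G)) ∧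
    (∀ v, ∀ g ∈ R v, H1Finite (mLvl 𝔄 U hU v g) p) ∧
    (∃ R' : Finset (U × U → ZMod p), R'.card ≤ C ∧
      ∀ c : U × U → ZMod p, IsLvl₂ (𝔄.lvl.restrict U hU) c → IsTrivCocycle₂ c →
        (∀ (v : 𝔄.ι) (g : G), IsLocTrivU 𝔄 U hU p v g c) →
        ∃ r ∈ R', IsLvlCoboundary₂ (𝔄.lvl.restrict U hU) (fun x => c x - r x)) ∧
    (∏ v, ∏ g ∈ R v,
        Nat.card {χ : mackeySubgroup (𝔄.loc v) U g → ZMod p // IsLvlHom (mLvl 𝔄 U hU v g) χ})
      * C ^ 2
      ≤ Nat.card {χ : U → ZMod p // IsLvlHom (𝔄.lvl.restrict U hU) χ} ^ 2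

/-- **[GA'-U]** The pair classes for a level `N` at the place `v₀`: for a system `R` of
representatives of the double cosets `N \ G / loc(Γ_{v₀})` and `g₁ ≠ g₂` in `R` there is a level
`2`-cocycle of `N` which is locally trivial at all `(v, g)`, `v ≠ v₀`, and at all `(v₀, g)`,
`g ∈ R ∖ {g₁, g₂}`, but not at both `(v₀, g₁)` and `(v₀, g₂)`. -/
def GaUAt (v₀ : 𝔄.ι) (N : Subgroup G) (hN : ∃ N' ∈ 𝔄.lvl.sets, N' ≤ N) : Prop :=
  ∃ R : Finset G, IsDoubleCosetReps 𝔄 N v₀ (R : Set G) ∧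
    ∀ g₁ ∈ R, ∀ g₂ ∈ R, g₁ ≠ g₂ →
      ∃ x : N × N → ZMod p, IsLvl₂ (𝔄.lvl.restrict N hN) x ∧ IsTrivCocycle₂ x ∧
        (∀ v : 𝔄.ι, v ≠ v₀ → ∀ g : G, IsLocTrivU 𝔄 N hN p v g x) ∧
        (∀ g ∈ R, g ≠ g₁ → g ≠ g₂ → IsLocTrivU 𝔄 N hN p v₀ g x) ∧
        ¬ (IsLocTrivU 𝔄 N hN p v₀ g₁ x ∧ IsLocTrivU 𝔄 N hN p v₀ g₂ x)

end statements

/-- **[GC-U]** for the arithmetic datum of `(ℚ, S, p)`: the three counts for every `χ`-open
subgroup `U` of `G_ℚ` (`U = G_L`, `L` a number field unramified outside `S` containing `μ_p`). -/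
def GcUStatement : Prop :=
  ∀ (p : ℕ) [Fact p.Prime], p ≠ 2 → ∀ (S : Finset Nat.Primes), pPrime p ∈ S →
    ∀ (hχ : ∃ N ∈ (globalLevelSys S).sets, ∀ s ∈ N, cycloChar p s = 1) (U : Subgroup GQ)
      (hU : IsChiOpen (globalLevelSys S) (cycloChar p) U),
      GcUAt p (arithDatumQ p S hχ) U hU.1

/-- **[GA'-U]** for the arithmetic datum of `(ℚ, S, p)`: a cofinal family of `S`-levels `N` with
trivial cyclotomic character carrying the pair classes at the place `p`. -/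
def GaUStatement : Prop :=
  ∀ (p : ℕ) [Fact p.Prime], p ≠ 2 → ∀ (S : Finset Nat.Primes) (hpS : pPrime p ∈ S)
    (hχ : ∃ N ∈ (globalLevelSys S).sets, ∀ s ∈ N, cycloChar p s = 1),
    ∀ N₀ ∈ (globalLevelSys S).sets, ∃ N, ∃ hN : N ∈ (globalLevelSys S).sets, N ≤ N₀ ∧
      (∀ s ∈ N, cycloChar p s = 1) ∧
      GaUAt p (arithDatumQ p S hχ) ⟨pPrime p, hpS⟩ N ⟨N, hN, le_rfl⟩

/-- **[GC-SHAP]** target of the frame bridge. -/
def GcShapStatement : Prop := GcUStatement → GlobalCountStatement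

/-- **[GA-SHAP]** target of the frame bridge. -/
def GaShapStatement : Prop := GaUStatement → BdSpanStatement

end Fermat.Agent.H85.ULang
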