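/-
P-CFT (helper85): the dictionary in degree `1`, EXACT form.

For the trivial module `ZMod p` and mutually cofinal level systems `𝒲` (frame side), `𝒰`
(elementary side): `lvlH 𝒲 (trivZ G p) 1 ≃ₗ[ZMod p] lvlHomSub 𝒰 p`, the space of level
homomorphisms `G → ZMod p`.  Consequences: equality of cardinalities and of dimensions.
-/
import Fermat.Agent.H85.Cft.LcDict

set_option autoImplicit false
set_option linter.style.haveILetI false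
set_option linter.unusedSectionVars false

open CategoryTheory groupCohomology

namespace Fermat.Agent.H85.LcShap

open Fermat.Agent.H13.Cft Fermat.Agent.H19 Fermat.Agent.H78.CFT

variable {G : Type} [Group G] (p : ℕ)

/-- The space of level homomorphisms `G → ZMod p`. -/
def lvlHomSub (𝒰 : LevelSys G) (p : ℕ) : Submodule (ZMod p) (G → ZMod p) where
  carrier := {χ | IsLvlHom 𝒰 χ}
  add_mem' := by
    rintro χ ψ ⟨h1, N, hN, h2⟩ ⟨h1', N', hN', h2'⟩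
    obtain ⟨N'', hN'', hle⟩ := 𝒰.directed N hN N' hN'
    refine ⟨fun g h => ?_, N'', hN'', fun g n hn => ?_⟩
    · simp only [Pi.add_apply, h1 g h, h1' g h]
      ring
    · simp only [Pi.add_apply, h2 g n (hle.trans inf_le_left hn),
        h2' g n (hle.trans inf_le_right hn)]
  zero_mem' := by
    obtain ⟨N, hN⟩ := 𝒰.nonempty
    exact ⟨fun _ _ => by simp, N, hN, fun _ _ _ => rfl⟩
  smul_mem' := by
    rintro c χ ⟨h1, N, hN, h2⟩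
    refine ⟨fun g h => ?_, N, hN, fun g n hn => ?_⟩
    · simp only [Pi.smul_apply, h1 g h, smul_add]
    · simp only [Pi.smul_apply, h2 g n hn]

lemma mem_lvlHomSub {𝒰 : LevelSys G} {χ : G → ZMod p} :
    χ ∈ lvlHomSub 𝒰 p ↔ IsLvlHom 𝒰 χ := Iff.rfl

variable {𝒲 𝒰 : LevelSys G} [Fact p.Prime]

lemma lcs_d0_eq_zero (x : lvlCochains 𝒲 (trivZ G p) 0) : lvlD 𝒲 (trivZ G p) 0 x = 0 := by
  apply Subtype.ext
  funext g
  rw [lvlD_coe, inhomogeneousCochains.d_hom_apply]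
  simp only [Fin.sum_univ_succ, Fin.sum_univ_zero]
  have e1 : (fun i : Fin 0 => g i.succ) = Fin.contractNth (0 : Fin 1) (· * ·) g := by
    funext i; exact i.elim0
  rw [e1]
  simp

/-- The linear map `Z¹ → Hom_level`. -/
def lcsZ1ToHom (h : Finer 𝒲 𝒰) :
    LinearMap.ker (lvlD 𝒲 (trivZ G p) 1) →ₗ[ZMod p] lvlHomSub 𝒰 p where
  toFun x := ⟨fun g => (x.1.1 (fun _ => g) : ZMod p),
    lcs_isLvlHom_of_cocycle p h x.1 (LinearMap.mem_ker.1 x.2)⟩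
  map_add' _ _ := rfl
  map_smul' _ _ := rfl

lemma lcsZ1ToHom_injective (h : Finer 𝒲 𝒰) : Function.Injective (lcsZ1ToHom p h) := by
  intro x y hxy
  apply Subtype.ext
  apply Subtype.ext
  funext g
  have := congrFun (congrArg Subtype.val hxy) (g 0)
  have e := lcs_vec1 g
  simp only [lcsZ1ToHom, LinearMap.coe_mk, AddHom.coe_mk] at this
  rw [e] at this
  exact this

lemma lcsZ1ToHom_surjective (h₁ : Finer 𝒲 𝒰) (h₂ : Finer 𝒰 𝒲) :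
    Function.Surjective (lcsZ1ToHom p h₁) := by
  rintro ⟨χ, hχ1, hχ2⟩
  have hd : lvlD 𝒲 (trivZ G p) 1 (lcsC1 p h₂ χ hχ2) = 0 := by
    apply Subtype.ext
    funext g
    show ((lvlD 𝒲 (trivZ G p) 1 (lcsC1 p h₂ χ hχ2)).1 g : ZMod p) = 0
    rw [lcs_d_C1, hχ1]
    ring
  exact ⟨⟨lcsC1 p h₂ χ hχ2, LinearMap.mem_ker.2 hd⟩, rfl⟩

lemma lcs_cocyclesToH1_injective :
    Function.Injective (lvlCocyclesToH 𝒲 (trivZ G p) 1) := by
  refine (injective_iff_map_eq_zero _).2 fun x hx => ?_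
  obtain ⟨y, hy⟩ := (lvlCocyclesToH_succ_eq_zero_iff 𝒲 (trivZ G p) 0 x).1 hx
  apply Subtype.ext
  rw [← hy, lcs_d0_eq_zero]
  rfl

/-- `Z¹ ≃ H¹` (there are no coboundaries for the trivial action). -/
noncomputable def lcsZ1EquivH1 :
    LinearMap.ker (lvlD 𝒲 (trivZ G p) 1) ≃ₗ[ZMod p] lvlH 𝒲 (trivZ G p) 1 :=
  LinearEquiv.ofBijective (lvlCocyclesToH 𝒲 (trivZ G p) 1)
    ⟨lcs_cocyclesToH1_injective p, lvlCocyclesToH_surjective 𝒲 (trivZ G p) 1⟩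

/-- `Z¹ ≃ Hom_level`. -/
noncomputable def lcsZ1EquivHom (h₁ : Finer 𝒲 𝒰) (h₂ : Finer 𝒰 𝒲) :
    LinearMap.ker (lvlD 𝒲 (trivZ G p) 1) ≃ₗ[ZMod p] lvlHomSub 𝒰 p :=
  LinearEquiv.ofBijective (lcsZ1ToHom p h₁)
    ⟨lcsZ1ToHom_injective p h₁, lcsZ1ToHom_surjective p h₁ h₂⟩

/-- **`H¹(𝒲, ZMod p) ≃ Hom_level(G, ZMod p)`.** -/
noncomputable def lcsH1Equiv (h₁ : Finer 𝒲 𝒰) (h₂ : Finer 𝒰 𝒲) :
    lvlH 𝒲 (trivZ G p) 1 ≃ₗ[ZMod p] lvlHomSub 𝒰 p :=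
  (lcsZ1EquivH1 p).symm.trans (lcsZ1EquivHom p h₁ h₂)

/-- The class of the cocycle attached to a level homomorphism corresponds to it. -/
lemma lcsH1Equiv_apply (h₁ : Finer 𝒲 𝒰) (h₂ : Finer 𝒰 𝒲)
    (x : lvlCochains 𝒲 (trivZ G p) 1) (hx : lvlD 𝒲 (trivZ G p) 1 x = 0) (g : G) :
    (lcsH1Equiv p h₁ h₂ (lvlHMk 𝒲 (trivZ G p) 1 x hx)).1 g = (x.1 (fun _ => g) : ZMod p) := by
  have h : lvlHMk 𝒲 (trivZ G p) 1 x hx
      = lcsZ1EquivH1 p (𝒲 := 𝒲) ⟨x, LinearMap.mem_ker.2 hx⟩ := rfl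
  rw [h, lcsH1Equiv, LinearEquiv.trans_apply, LinearEquiv.symm_apply_apply]
  rfl

theorem lcs_h1_card (h₁ : Finer 𝒲 𝒰) (h₂ : Finer 𝒰 𝒲) :
    Nat.card (lvlH 𝒲 (trivZ G p) 1) = Nat.card {χ : G → ZMod p // IsLvlHom 𝒰 χ} :=
  Nat.card_congr (lcsH1Equiv p h₁ h₂).toEquiv

theorem lcs_h1_finrank (h₁ : Finer 𝒲 𝒰) (h₂ : Finer 𝒰 𝒲) :
    Module.finrank (ZMod p) (lvlH 𝒲 (trivZ G p) 1)
      = Module.finrank (ZMod p) (lvlHomSub 𝒰 p) :=
  (lcsH1Equiv p h₁ h₂).finrank_eq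

end Fermat.Agent.H85.LcShap
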